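/-
Lifts of residues fixed by inertia, and an element on which inertia acts through the tame character.
-/
import Fermat.Agent.Galois.MazurP.InertiaField

/-!
# Inertia lifts

For `σ` in inertia at a place `A` over `p`, every residue has a lift fixed by `σ`; if `σ` moves a
primitive `p`-th root of unity, `z = ζ - 1` satisfies `z ^ (p - 1) = p · unit` and `σ z / z` is not
residually `1`.
-/

set_option autoImplicit false

namespace FermatLib.Galois.Ordinary

local notation "Qbar" => AlgebraicClosure ℚ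
local notation "Γℚ" => (AlgebraicClosure ℚ ≃ₐ[ℚ] AlgebraicClosure ℚ)

variable {p : ℕ} {A : ValuationSubring Qbar} {k : Type*} [Field k] (π : A →+* k)

theorem red_eq_zero_iff_valuation (hπ : ∀ a : A, π a = 0 ↔ ¬ IsUnit a) (a : A) :
    π a = 0 ↔ A.valuation (a : Qbar) < 1 := by
  rw [hπ, ← A.valuation_lt_one_iff, IsLocalRing.mem_maximalIdeal, mem_nonunits_iff]

/-- Every residue has a lift fixed by inertia. -/
theorem exists_fixed_lift (hp : p.Prime) (hA : A.LiesOverPrime p) (hπs : Function.Surjective π)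
    (hπ : ∀ a : A, π a = 0 ↔ ¬ IsUnit a) {σ : Γℚ} (hσ : σ ∈ A.inertiaSubgroupIn ℚ) (b : k) :
    ∃ c : A, σ (c : Qbar) = c ∧ π c = b := by
  obtain ⟨a, rfl⟩ := hπs b
  obtain ⟨c, hc, hcA, hlt⟩ := MazurP.exists_inertiaField_sub_lt hp hA a.2
  refine ⟨⟨c, hcA⟩, MazurP.mem_inertiaField_iff.mp hc σ hσ, (sub_eq_zero.mp ?_).symm⟩
  rw [← map_sub, red_eq_zero_iff_valuation π hπ]
  exact hlt

/-- An element on which inertia acts through a nontrivial tame character. -/
theorem exists_critical_element (hp : p.Prime) (hA : A.LiesOverPrime p)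
    (hπ : ∀ a : A, π a = 0 ↔ ¬ IsUnit a) {σ : Γℚ} {ζ : Qbar} (hζ : IsPrimitiveRoot ζ p)
    (hne : σ ζ ≠ ζ) :
    ∃ (z w : Qbar) (e : A), z ≠ 0 ∧ z ^ (p - 1) = p * (e : Qbar) ∧ π e ≠ 0 ∧
      σ z = w * z ∧ ∃ hw : w ∈ A, π ⟨w, hw⟩ ≠ 1 := by
  have : NeZero p := ⟨hp.ne_zero⟩
  set z := ζ - 1 with hz
  have hz0 : z ≠ 0 := sub_ne_zero.mpr (hζ.ne_one hp.one_lt)
  have hp0 : (p : Qbar) ≠ 0 := Nat.cast_ne_zero.mpr hp.ne_zero
  have hvz : A.valuation z ≠ 0 := (Valuation.ne_zero_iff _).mpr hz0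
  have hve : A.valuation (z ^ (p - 1) / p) = 1 := by
    rw [map_div₀, map_pow, Flat.valuation_sub_one_pow hp hA hζ,
      div_self ((Valuation.ne_zero_iff _).mpr hp0)]
  obtain ⟨a, -, ha⟩ := hζ.eq_pow_of_pow_eq_one
    (show σ ζ ^ p = 1 by rw [← map_pow, hζ.pow_eq_one, map_one])
  set w := (ζ ^ a - 1) / z with hw
  have hwA : w ∈ A := (A.valuation_le_one_iff _).mp (by
    rw [hw, map_div₀, div_le_one₀ (zero_lt_iff.mpr hvz)]
    exact Flat.valuation_pow_sub_one_le hp hA hζ a)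
  refine ⟨z, w, ⟨z ^ (p - 1) / p, (A.valuation_le_one_iff _).mp hve.le⟩, hz0, ?_, ?_, ?_, hwA, ?_⟩
  · field_simp
  · rw [ne_eq, red_eq_zero_iff_valuation π hπ]
    exact hve.not_lt
  · rw [hw, div_mul_cancel₀ _ hz0, hz, map_sub, map_one, ha]
  · intro h1
    refine hne ?_
    have h2 : A.valuation (w - 1) < 1 := by
      have := (red_eq_zero_iff_valuation π hπ (⟨w, hwA⟩ - 1)).mp (by rw [map_sub, h1, map_one, sub_self])
      exact this
    have h3 : A.valuation (((a : Qbar) - 1) * z) < A.valuation z := by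
      have e : ((a : Qbar) - 1) * z = (w - 1) * z - (ζ ^ a - 1 - a * z) := by
        rw [sub_mul w, hw, div_mul_cancel₀ _ hz0]; ring
      rw [e]
      refine A.valuation.map_sub_lt ?_ (Flat.valuation_pow_sub_one_sub_mul_lt hp hA hζ a)
      rw [map_mul]
      exact mul_lt_of_lt_one_left (zero_lt_iff.mpr hvz) h2
    rw [map_mul, mul_lt_iff_lt_one_left (zero_lt_iff.mpr hvz)] at h3
    have hdvd : (p : ℤ) ∣ (a : ℤ) - 1 :=
      Flat.dvd_of_valuation_intCast_lt_one hp hA (by push_cast; exact h3)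
    obtain ⟨t, ht⟩ := hdvd
    rw [← ha, ← zpow_natCast, show (a : ℤ) = 1 + (p : ℤ) * t by omega,
      zpow_add₀ (hζ.ne_zero hp.ne_zero), zpow_mul, zpow_natCast, hζ.pow_eq_one, one_zpow, mul_one,
      zpow_one]

end FermatLib.Galois.Ordinary
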