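/-
The residual representation of a Hecke–Galois datum is ramified at `p > 2`.
-/
import Fermat.Prelude.Def_CuspForm_HeckeGaloisRepDatum
import Fermat.Agent.Galois.FrobeniusDensity
import Fermat.Agent.Galois.PlaceConjugate
import Fermat.Agent.Galois.TransferCyclo

/-!
# Inertia at `p` acts nontrivially on the residual representation of a datum

The residual determinant is the mod `p` cyclotomic character, which is nontrivial on inertia at
`p` for `p ≠ 2`.
-/

set_option autoImplicit false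

open scoped TensorProduct
open Polynomial

namespace FermatLib.Galois.Ordinary

local notation "Qbar" => AlgebraicClosure ℚ
local notation "Γℚ" => (AlgebraicClosure ℚ ≃ₐ[ℚ] AlgebraicClosure ℚ)

/-- For `p ≠ 2` some inertia element at `p` moves a primitive `p`-th root of unity. -/
theorem exists_inertia_apply_root_ne {p : ℕ} (hp : p.Prime) (hp2 : p ≠ 2)
    {A : ValuationSubring Qbar} (hA : A.LiesOverPrime p) :
    ∃ τ ∈ A.inertiaSubgroupIn ℚ, ∃ ζ : Qbar, IsPrimitiveRoot ζ p ∧ τ ζ ≠ ζ := by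
  have : Fact p.Prime := ⟨hp⟩
  obtain ⟨ζ, hζ⟩ := FermatLib.Mazur.exists_isPrimitiveRoot_qbar p
  obtain ⟨u, hu⟩ : ∃ u : (ZMod p)ˣ, u ≠ 1 := by
    refine ⟨-1, fun h => hp2 ?_⟩
    have h2 : ((2 : ℕ) : ZMod p) = 0 := by
      have := congrArg Units.val h
      push_cast at this ⊢
      linear_combination -this
    exact ((Nat.prime_dvd_prime_iff_eq hp Nat.prime_two).mp
      ((ZMod.natCast_eq_zero_iff _ _).mp h2))
  obtain ⟨τ, hτ, hτu⟩ := cycloChar_surjective_on_inertia p hA u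
  exact ⟨τ, hτ, ζ, hζ, fun h => hu (hτu ▸ (FermatLib.Mazur.cycloChar_eq_one_iff p hζ τ).mpr h)⟩

variable {p N : ℕ} [NeZero N] {S : Finset ℕ}
  {𝒪 : Type} [CommRing 𝒪] [IsDomain 𝒪] [IsDiscreteValuationRing 𝒪]
  [IsAdicComplete (IsLocalRing.maximalIdeal 𝒪) 𝒪]
  {θ : CuspForm.heckeAlgebra N 2 (↑S : Set ℕ) →+* IsLocalRing.ResidueField 𝒪}
  {T : Type} [CommRing T] [IsLocalRing T] [IsNoetherianRing T]
  [IsAdicComplete (IsLocalRing.maximalIdeal T) T] [Algebra 𝒪 T] [IsLocalHom (algebraMap 𝒪 T)]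
  [Module.Finite 𝒪 T] [Module.Free 𝒪 T]

/-- The residual determinant at a Frobenius element is the prime. -/
theorem det_residual_frobenius (hNS : ∀ q : ℕ, q.Prime → q ∣ N → q ∈ S)
    (H : CuspForm.HeckeGaloisRepDatum N (↑S : Set ℕ) 𝒪 θ T) {ℓ : ℕ} (hℓ : ℓ.Prime) (hℓS : ℓ ∉ S)
    {B : ValuationSubring Qbar} (hB : B.LiesOverPrime ℓ) {σ : Γℚ} (hσ : B.IsFrobeniusAt σ ℓ) :
    LinearMap.det (H.ρ.residual.ρ σ) = (ℓ : IsLocalRing.ResidueField T) := by
  have h := H.charpoly_frob ℓ hℓ (fun h => hℓS (hNS ℓ hℓ h)) hℓS B hB σ hσ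
  have hdet : LinearMap.det (H.ρ.ρ σ) = (ℓ : T) := by
    rw [LinearMap.det_eq_sign_charpoly_coeff, h, H.ρ.finrank_eq]
    simp
  show LinearMap.det ((H.ρ.ρ σ).baseChange (IsLocalRing.ResidueField T)) = _
  rw [LinearMap.det_baseChange, hdet, map_natCast]

/-- An element moving a primitive `p`-th root of unity acts nontrivially residually. -/
theorem residual_ne_one_of_apply_root_ne (hp : p.Prime)
    (hp𝒪 : (p : 𝒪) ∈ IsLocalRing.maximalIdeal 𝒪) (hNS : ∀ q : ℕ, q.Prime → q ∣ N → q ∈ S)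
    (H : CuspForm.HeckeGaloisRepDatum N (↑S : Set ℕ) 𝒪 θ T) {τ : Γℚ} {ζ : Qbar}
    (hζ : IsPrimitiveRoot ζ p) (hτ : τ ζ ≠ ζ) : H.ρ.residual.ρ τ ≠ 1 := by
  intro h1
  obtain ⟨L, hL, hLρ⟩ := H.ρ.residual.factorsThroughFiniteLevel
  let L' : IntermediateField ℚ Qbar := L ⊔ IntermediateField.adjoin ℚ {ζ}
  have : FiniteDimensional ℚ (IntermediateField.adjoin ℚ {ζ}) :=
    IntermediateField.adjoin.finiteDimensional ((AlgebraicClosure.isAlgebraic ℚ).isAlgebraic ζ).isIntegral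
  have : FiniteDimensional ℚ L' := IntermediateField.finiteDimensional_sup _ _
  obtain ⟨ℓ, hℓ, hℓS, B, hB, σ, hσ, a, b, -, hb⟩ :=
    exists_isFrobeniusAt_agreeOn L' τ (S ∪ {p})
  rw [Finset.mem_union, not_or, Finset.mem_singleton] at hℓS
  have hres : H.ρ.residual.ρ (σ ^ b) = 1 := by
    have h2 : H.ρ.residual.ρ (τ⁻¹ * σ ^ b) = 1 := hLρ _ fun x hx => by
      rw [AlgEquiv.mul_apply, hb x ((le_sup_left : L ≤ L') hx), AlgEquiv.aut_inv,
        AlgEquiv.symm_apply_apply]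
    rwa [← mul_inv_cancel_left τ (σ ^ b), map_mul, h1, one_mul]
  have hℓb : ((ℓ ^ b : ℕ) : IsLocalRing.ResidueField T) = 1 := by
    rw [Nat.cast_pow, ← det_residual_frobenius hNS H hℓ hℓS.1 hB hσ, ← map_pow, ← map_pow,
      hres, map_one]
  have hchar : CharP (IsLocalRing.ResidueField T) p := by
    refine (CharP.charP_iff_prime_eq_zero hp).mpr ?_
    rw [← map_natCast (IsLocalRing.residue T), IsLocalRing.residue_eq_zero_iff,
      ← map_natCast (algebraMap 𝒪 T)]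
    exact map_nonunit (algebraMap 𝒪 T) _ hp𝒪
  have hmod : ℓ ^ b ≡ 1 [MOD p] := by
    rw [← CharP.natCast_eq_natCast (IsLocalRing.ResidueField T) p, hℓb, Nat.cast_one]
  have hσζ : σ ζ = ζ ^ ℓ := apply_eq_pow_of_isFrobeniusAt B hℓ hB
    (fun h => hℓS.2 ((Nat.prime_dvd_prime_iff_eq hℓ hp).mp h)) hσ hζ
  have hpow : ∀ j : ℕ, (σ ^ j) ζ = ζ ^ ℓ ^ j := by
    intro j
    induction j with
    | zero => simp
    | succ j ih => rw [pow_succ', AlgEquiv.mul_apply, ih, map_pow, hσζ, ← pow_mul, pow_succ']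
  refine hτ ?_
  have hζL : ζ ∈ L' := (le_sup_right : _ ≤ L') (IntermediateField.mem_adjoin_simple_self ℚ ζ)
  rw [← hb ζ hζL, hpow, ← pow_one ζ, ← pow_mul, one_mul]
  exact pow_eq_pow_of_modEq hmod hζ.pow_eq_one

end FermatLib.Galois.Ordinary
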