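/-
For a group acting on a finite abelian group without trivial subquotient constituents, an element
of augmentation zero of the group algebra acts as the identity.
-/
import Mathlib

/-!
# Augmentation-zero elements acting as the identity

If no subquotient of a finite stable subgroup `K` has a nonzero vector fixed by the group, some
element of the augmentation ideal of the integral group algebra acts as the identity on `K`.
-/

set_option autoImplicit false

namespace FermatLib.Galois.Ordinary

variable (G : Type*) [Group G]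

/-- The augmentation of the integral group algebra. -/
noncomputable def augHom : MonoidAlgebra ℤ G →+* ℤ :=
  (MonoidAlgebra.lift ℤ ℤ G (1 : G →* ℤ)).toRingHom

variable {G}

theorem augHom_single (g : G) (c : ℤ) : augHom G (MonoidAlgebra.single g c) = c := by
  simp [augHom]

variable {M : Type*} [AddCommGroup M] [DistribMulAction G M]

variable (G M) in
/-- The action of the integral group algebra. -/
noncomputable def actHom : MonoidAlgebra ℤ G →+* AddMonoid.End M :=
  MonoidAlgebra.liftNCRingHom (Int.castRingHom (AddMonoid.End M))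
    (DistribMulAction.toAddMonoidEnd G M) (fun n g => Int.cast_commute n _)

theorem actHom_single (g : G) (c : ℤ) (x : M) :
    actHom G M (MonoidAlgebra.single g c) x = c • g • x := by
  simp [actHom]
  rfl

theorem actHom_add (a b : MonoidAlgebra ℤ G) (x : M) :
    actHom G M (a + b) x = actHom G M a x + actHom G M b x := by
  rw [map_add]; rfl

theorem actHom_sub (a b : MonoidAlgebra ℤ G) (x : M) :
    actHom G M (a - b) x = actHom G M a x - actHom G M b x := by
  rw [map_sub]; rfl

theorem actHom_mul (a b : MonoidAlgebra ℤ G) (x : M) :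
    actHom G M (a * b) x = actHom G M a (actHom G M b x) := by
  rw [map_mul]; rfl

theorem actHom_one (x : M) : actHom G M 1 x = x := by
  rw [map_one]; rfl

theorem actHom_eq_sum (f : MonoidAlgebra ℤ G) (x : M) :
    actHom G M f x = f.coeff.sum fun g c => c • g • x := by
  induction f using MonoidAlgebra.induction_linear with
  | zero => simp
  | add a b ha hb =>
    rw [actHom_add, ha, hb, MonoidAlgebra.coeff_add,
      Finsupp.sum_add_index' (fun _ => zero_zsmul _) (fun _ _ _ => add_zsmul _ _ _)]
  | single g c =>
    rw [actHom_single, MonoidAlgebra.coeff_single, Finsupp.sum_single_index (zero_zsmul _)]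

theorem actHom_mem {K : AddSubgroup M} (hK : ∀ g : G, ∀ x ∈ K, g • x ∈ K) (f : MonoidAlgebra ℤ G)
    {x : M} (hx : x ∈ K) : actHom G M f x ∈ K := by
  rw [actHom_eq_sum]
  exact sum_mem fun g _ => zsmul_mem (hK g x hx) _

/-- The subgroup of the images of `w` under the augmentation ideal. -/
noncomputable def augImage (G : Type*) [Group G] [DistribMulAction G M] (w : M) : AddSubgroup M :=
  (augHom G).toAddMonoidHom.ker.map
    (AddMonoidHom.mk' (fun f : MonoidAlgebra ℤ G => actHom G M f w)
      fun a b => actHom_add a b w)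

theorem mem_augImage {w y : M} :
    y ∈ augImage G w ↔ ∃ f : MonoidAlgebra ℤ G, augHom G f = 0 ∧ actHom G M f w = y := by
  simp [augImage]

theorem smul_mem_augImage {w y : M} (g : G) (hy : y ∈ augImage G w) : g • y ∈ augImage G w := by
  obtain ⟨f, hf, rfl⟩ := mem_augImage.mp hy
  refine mem_augImage.mpr ⟨MonoidAlgebra.single g 1 * f, by rw [map_mul, hf, mul_zero], ?_⟩
  rw [actHom_mul, actHom_single, one_zsmul]

theorem smul_sub_mem_augImage (w : M) (g : G) : g • w - w ∈ augImage G w := by
  refine mem_augImage.mpr ⟨MonoidAlgebra.single g 1 - MonoidAlgebra.single 1 1, ?_, ?_⟩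
  · rw [map_sub, augHom_single, augHom_single, sub_self]
  · rw [actHom_sub, actHom_single, actHom_single, one_zsmul, one_zsmul,
      one_smul]

/-- If no subquotient of the finite stable subgroup `K` has a nonzero fixed vector, an element of
augmentation zero acts as the identity on `K`. -/
theorem exists_aug_eq_zero_fix (K : AddSubgroup M) [Finite K]
    (hK : ∀ g : G, ∀ x ∈ K, g • x ∈ K)
    (hfix : ∀ U : AddSubgroup M, U ≤ K → (∀ g : G, ∀ u ∈ U, g • u ∈ U) →
      ∀ x ∈ K, (∀ g : G, g • x - x ∈ U) → x ∈ U) :
    ∃ f : MonoidAlgebra ℤ G, augHom G f = 0 ∧ ∀ x ∈ K, actHom G M f x = x := by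
  classical
  have : Fintype K := Fintype.ofFinite K
  suffices h : ∀ s : Finset K, ∃ f : MonoidAlgebra ℤ G, augHom G f = 0 ∧
      ∀ x ∈ s, actHom G M f (x : M) = x by
    obtain ⟨f, hf, h'⟩ := h Finset.univ
    exact ⟨f, hf, fun x hx => h' ⟨x, hx⟩ (Finset.mem_univ _)⟩
  intro s
  induction s using Finset.induction with
  | empty => exact ⟨0, map_zero _, fun x hx => absurd hx (Finset.notMem_empty _)⟩
  | insert v s hv ih =>
    obtain ⟨f, hf, hs⟩ := ih
    have hwK : (v : M) - actHom G M f v ∈ K := sub_mem v.2 (actHom_mem hK f v.2)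
    set w := (v : M) - actHom G M f v with hw
    have hUK : augImage G w ≤ K := fun y hy => by
      obtain ⟨e, -, rfl⟩ := mem_augImage.mp hy
      exact actHom_mem hK e hwK
    obtain ⟨e, he, hew⟩ := mem_augImage.mp (hfix (augImage G w) hUK
      (fun g u hu => smul_mem_augImage g hu) w hwK fun g => smul_sub_mem_augImage w g)
    refine ⟨f + e - e * f, ?_, fun x hx => ?_⟩
    · rw [map_sub, map_add, map_mul, hf, he]
      ring
    rw [actHom_sub, actHom_add, actHom_mul]
    rcases Finset.mem_insert.mp hx with rfl | hx
    · rw [add_sub_assoc, ← map_sub, ← hw, hew, hw]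
      abel
    · rw [hs x hx]
      abel

/-- From the vectors killed by `p` to the whole of a `p ^ k`-torsion subgroup. -/
theorem exists_aug_eq_zero_fix_of_pow {p k : ℕ} (K : AddSubgroup M)
    (hK : ∀ g : G, ∀ x ∈ K, g • x ∈ K) (hk : ∀ x ∈ K, p ^ k • x = 0) (f : MonoidAlgebra ℤ G)
    (hf : augHom G f = 0) (hfp : ∀ x ∈ K, p • x = 0 → actHom G M f x = x) :
    ∃ f' : MonoidAlgebra ℤ G, augHom G f' = 0 ∧ ∀ x ∈ K, actHom G M f' x = x := by
  have key : ∀ j : ℕ, ∀ x ∈ K, p ^ j • x = 0 → actHom G M ((1 - f) ^ j) x = 0 := by
    intro j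
    induction j with
    | zero =>
      intro x _ hx
      rw [pow_zero, one_smul] at hx
      rw [hx, map_zero]
    | succ j ih =>
      intro x hx hpx
      rw [pow_succ, actHom_mul]
      refine ih _ (actHom_mem hK _ hx) ?_
      rw [← map_nsmul]
      have h := hfp (p ^ j • x) (nsmul_mem hx _) (by rw [smul_smul, ← pow_succ', hpx])
      rw [actHom_sub, actHom_one, h, sub_self]
  refine ⟨1 - (1 - f) ^ k, ?_, fun x hx => ?_⟩
  · rw [map_sub, map_pow, map_sub, hf, map_one, sub_zero, one_pow, sub_self]
  · rw [actHom_sub, actHom_one, key k x hx (hk x hx), sub_zero]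

end FermatLib.Galois.Ordinary
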