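/-
Group-algebra identities on `J₀(N)[p^k]` hold for the representation of a datum.
-/
import Fermat.Agent.Galois.Ordinary.GroupElement
import Fermat.Agent.Galois.TransferHecke

/-!
# Transfer of group-algebra identities

An element of `ℤ[Gal(ℚ̄/ℚ)]` killing `J₀(N)[p^k]` maps `V` into `I V` when `k` is large enough.
-/

set_option autoImplicit false

open ModularCurve CuspForm

namespace FermatLib.Galois.Ordinary

local notation "Qbar" => AlgebraicClosure ℚ
local notation "Γℚ" => (AlgebraicClosure ℚ ≃ₐ[ℚ] AlgebraicClosure ℚ)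

variable {T : Type} [CommRing T] [IsLocalRing T]

/-- The group algebra acting through a representation. -/
noncomputable def repHom (ρ : GaloisRepAdic T) : MonoidAlgebra ℤ Γℚ →+* Module.End T ρ.V :=
  MonoidAlgebra.liftNCRingHom (Int.castRingHom (Module.End T ρ.V)) ρ.ρ
    (fun n g => Int.cast_commute n _)

theorem repHom_single (ρ : GaloisRepAdic T) (g : Γℚ) (c : ℤ) :
    repHom ρ (MonoidAlgebra.single g c) = c • ρ.ρ g := by
  simp [repHom, zsmul_eq_mul]

theorem repHom_eq_sum (ρ : GaloisRepAdic T) (f : MonoidAlgebra ℤ Γℚ) (v : ρ.V) :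
    repHom ρ f v = f.coeff.sum fun g c => c • ρ.ρ g v := by
  induction f using MonoidAlgebra.induction_linear with
  | zero => simp
  | add a b ha hb =>
    rw [map_add, LinearMap.add_apply, ha, hb, MonoidAlgebra.coeff_add,
      Finsupp.sum_add_index' (fun _ => zero_zsmul _) (fun _ _ _ => add_zsmul _ _ _)]
  | single g c =>
    rw [repHom_single, MonoidAlgebra.coeff_single, Finsupp.sum_single_index (zero_zsmul _),
      LinearMap.smul_apply]

section Subgroup

variable (G : Subgroup Γℚ)

/-- The group algebra of a subgroup inside that of `Gal(ℚ̄/ℚ)`. -/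
noncomputable def subgroupHom : MonoidAlgebra ℤ G →+* MonoidAlgebra ℤ Γℚ :=
  (MonoidAlgebra.mapDomainAlgHom ℤ ℤ G.subtype).toRingHom

theorem subgroupHom_single (g : G) (c : ℤ) :
    subgroupHom G (MonoidAlgebra.single g c) = MonoidAlgebra.single (g : Γℚ) c := by
  simp [subgroupHom]

theorem actHom_subgroupHom {M : Type*} [AddCommGroup M] [DistribMulAction Γℚ M]
    (f : MonoidAlgebra ℤ G) (x : M) :
    actHom Γℚ M (subgroupHom G f) x = actHom G M f x := by
  induction f using MonoidAlgebra.induction_linear with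
  | zero => simp
  | add a b ha hb => rw [map_add, actHom_add, actHom_add, ha, hb]
  | single g c => rw [subgroupHom_single, actHom_single, actHom_single]; rfl

theorem repHom_subgroupHom_eq_sum_sub (ρ : GaloisRepAdic T) {f : MonoidAlgebra ℤ G}
    (hf : augHom G f = 0) (v : ρ.V) :
    repHom ρ (subgroupHom G f) v = f.coeff.sum fun g c => c • (ρ.ρ g v - v) := by
  have h : ∀ f : MonoidAlgebra ℤ G, repHom ρ (subgroupHom G f) v =
      (f.coeff.sum fun g c => c • (ρ.ρ g v - v)) + augHom G f • v := by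
    intro f
    induction f using MonoidAlgebra.induction_linear with
    | zero => simp
    | add a b ha hb =>
      rw [map_add, map_add, LinearMap.add_apply, ha, hb, map_add, add_zsmul,
        MonoidAlgebra.coeff_add,
        Finsupp.sum_add_index' (fun _ => zero_zsmul _) (fun _ _ _ => add_zsmul _ _ _)]
      abel
    | single g c =>
      rw [subgroupHom_single, repHom_single, MonoidAlgebra.coeff_single,
        Finsupp.sum_single_index (zero_zsmul _), augHom_single, LinearMap.smul_apply, zsmul_sub,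
        sub_add_cancel]
  rw [h f, hf, zero_zsmul, add_zero]

end Subgroup

variable {N : ℕ} [NeZero N] {p : ℕ} {S : Finset ℕ}
  {𝒪 : Type} [CommRing 𝒪] [IsDomain 𝒪] [IsDiscreteValuationRing 𝒪]
  [IsAdicComplete (IsLocalRing.maximalIdeal 𝒪) 𝒪]
  {θ : CuspForm.heckeAlgebra N 2 (↑S : Set ℕ) →+* IsLocalRing.ResidueField 𝒪}
  [IsNoetherianRing T] [IsAdicComplete (IsLocalRing.maximalIdeal T) T] [Algebra 𝒪 T]
  [IsLocalHom (algebraMap 𝒪 T)] [Module.Finite 𝒪 T] [Module.Free 𝒪 T]

/-- A group-algebra element killing `J₀(N)[p^k]` maps `V` into `I V`, for `k` large. -/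
theorem exists_level_repHom_mem (hp : p.Prime) (hp𝒪 : (p : 𝒪) ∈ IsLocalRing.maximalIdeal 𝒪)
    (hpS : p ∈ S) (hNS : ∀ q : ℕ, q.Prime → q ∣ N → q ∈ S) (hJ : TorsionGaloisInputs N p)
    (H : HeckeGaloisRepDatum N (↑S : Set ℕ) 𝒪 θ T) (n : ℕ) :
    ∃ k : ℕ, ∀ f : MonoidAlgebra ℤ Γℚ,
      (∀ x : JZero N, p ^ k • x = 0 → actHom Γℚ (JZero N) f x = 0) →
      ∀ v : H.ρ.V, repHom H.ρ f v ∈
        IsLocalRing.maximalIdeal T ^ n • (⊤ : Submodule T H.ρ.V) := by
  obtain ⟨k, hk⟩ := exists_level_transfer hp hp𝒪 hpS hNS hJ H _ ⟨n, le_rfl⟩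
  refine ⟨k, fun f hf v => ?_⟩
  let _ := heckeModuleBar N
  have h := hk (ι := f.coeff.support) (fun g => ((f.coeff g.1 : ℤ) : awayHeckeAlg (↑S : Set ℕ)))
    (fun g => g.1) (fun x hx => by
      refine Eq.trans ?_ ((actHom_eq_sum f x).symm.trans (hf x hx))
      rw [Finsupp.sum, ← Finset.sum_coe_sort f.coeff.support]
      refine Finset.sum_congr rfl fun g _ => ?_
      rw [SubringClass.coe_intCast, Int.cast_smul_eq_zsmul]) v
  rw [repHom_eq_sum, Finsupp.sum, ← Finset.sum_coe_sort f.coeff.support]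
  convert h using 2 with g
  rw [map_intCast, Int.cast_smul_eq_zsmul]

end FermatLib.Galois.Ordinary
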