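/-
Ordinarity at `p` of a Hecke–Galois datum from inputs on `J₀(N)`.
-/
import Fermat.Prelude.Def_GaloisRep_LocalConditions
import Fermat.Agent.Galois.Ordinary.ResidualRamified
import Fermat.Agent.Galois.Ordinary.Transfer
import Fermat.Agent.Galois.TransferHecke

/-!
# Ordinary at `p`

If `J₀(N)[p^k]` has, at each place over `p`, a subgroup `K` stable under decomposition, with inertia
trivial on the quotient and no trivial inertia constituent among the points killed by `p`, then the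
representation of a datum is ordinary at `p` as soon as its residual representation is.
-/

set_option autoImplicit false

open ModularCurve CuspForm
open scoped TensorProduct

namespace FermatLib.Galois.Ordinary

local notation "Qbar" => AlgebraicClosure ℚ
local notation "Γℚ" => (AlgebraicClosure ℚ ≃ₐ[ℚ] AlgebraicClosure ℚ)

/-- `J₀(N)[p^k]` has a connected part at every place over `p`. -/
def HasConnectedKernels (N : ℕ) [NeZero N] (p : ℕ) : Prop :=
  ∀ A : ValuationSubring Qbar, A.LiesOverPrime p → ∀ k : ℕ, ∃ K : AddSubgroup (JZero N),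
    (∀ x ∈ K, p ^ k • x = 0) ∧
    (∀ σ ∈ A.decompositionSubgroup ℚ, ∀ x ∈ K, σ • x ∈ K) ∧
    (∀ σ ∈ A.inertiaSubgroupIn ℚ, ∀ x : JZero N, p ^ k • x = 0 → σ • x - x ∈ K) ∧
    ∀ U : AddSubgroup (JZero N), U ≤ K → (∀ u ∈ U, p • u = 0) →
      (∀ σ ∈ A.inertiaSubgroupIn ℚ, ∀ u ∈ U, σ • u ∈ U) →
      ∀ x ∈ K, p • x = 0 → (∀ σ ∈ A.inertiaSubgroupIn ℚ, σ • x - x ∈ U) → x ∈ U

/-- A basis starting at a vector with nonzero reduction. -/
theorem exists_basis_of_residual {T : Type} [CommRing T] [IsLocalRing T] (ρ : GaloisRepAdic T)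
    (a w : ρ.V) (hspan : Submodule.span (IsLocalRing.ResidueField T)
      {(1 : IsLocalRing.ResidueField T) ⊗ₜ[T] a, (1 : IsLocalRing.ResidueField T) ⊗ₜ[T] w} = ⊤) :
    ∃ b : Module.Basis (Fin 2) T ρ.V, b 0 = a ∧ b 1 = w := by
  let φ : (Fin 2 → T) →ₗ[T] ρ.V := Fintype.linearCombination T ![a, w]
  have htop : LinearMap.range φ = ⊤ := by
    rw [← IsLocalRing.map_tensorProduct_mk_eq_top (R := T)]
    rw [Fintype.range_linearCombination, Submodule.map_span, Matrix.range_cons, Matrix.range_cons,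
      Matrix.range_empty, Set.union_empty, Set.singleton_union, Set.image_pair]
    refine eq_top_iff.mpr fun y _ => ?_
    have hy : y ∈ Submodule.span (IsLocalRing.ResidueField T)
      {(1 : IsLocalRing.ResidueField T) ⊗ₜ[T] a, (1 : IsLocalRing.ResidueField T) ⊗ₜ[T] w} :=
      hspan ▸ Submodule.mem_top
    obtain ⟨s, t, rfl⟩ := Submodule.mem_span_pair.mp hy
    obtain ⟨s, rfl⟩ := IsLocalRing.residue_surjective s
    obtain ⟨t, rfl⟩ := IsLocalRing.residue_surjective t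
    rw [← IsLocalRing.ResidueField.algebraMap_eq, algebraMap_smul, algebraMap_smul]
    exact Submodule.add_mem _ (Submodule.smul_mem _ _ (Submodule.subset_span (Set.mem_insert _ _)))
      (Submodule.smul_mem _ _
        (Submodule.subset_span (Set.mem_insert_of_mem _ (Set.mem_singleton _))))
  have hsurj : Function.Surjective φ := LinearMap.range_eq_top.mp htop
  let b₀ := Module.finBasisOfFinrankEq T ρ.V ρ.finrank_eq
  have hinj : Function.Injective φ := by
    have h : Function.Injective (b₀.equivFun.toLinearMap.comp φ) :=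
      OrzechProperty.injective_of_surjective_endomorphism _ (b₀.equivFun.surjective.comp hsurj)
    exact Function.Injective.of_comp (f := b₀.equivFun) h
  refine ⟨Module.Basis.ofEquivFun (LinearEquiv.ofBijective φ ⟨hinj, hsurj⟩).symm, ?_, ?_⟩ <;>
    simp [φ, Fintype.linearCombination_apply]

variable {p N : ℕ} [NeZero N] {S : Finset ℕ}
  {𝒪 : Type} [CommRing 𝒪] [IsDomain 𝒪] [IsDiscreteValuationRing 𝒪]
  [IsAdicComplete (IsLocalRing.maximalIdeal 𝒪) 𝒪]
  {θ : CuspForm.heckeAlgebra N 2 (↑S : Set ℕ) →+* IsLocalRing.ResidueField 𝒪}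
  {T : Type} [CommRing T] [IsLocalRing T] [IsNoetherianRing T]
  [IsAdicComplete (IsLocalRing.maximalIdeal T) T] [Algebra 𝒪 T] [IsLocalHom (algebraMap 𝒪 T)]
  [Module.Finite 𝒪 T] [Module.Free 𝒪 T]

/-- **Ordinary at `p`**, given the inputs on `J₀(N)`. -/
theorem isOrdinaryAt_datum (hp : p.Prime) (hp2 : p ≠ 2)
    (hp𝒪 : (p : 𝒪) ∈ IsLocalRing.maximalIdeal 𝒪) (hpS : p ∈ S)
    (hNS : ∀ q : ℕ, q.Prime → q ∣ N → q ∈ S) (hJ : TorsionGaloisInputs N p)
    (hK : HasConnectedKernels N p) (H : HeckeGaloisRepDatum N (↑S : Set ℕ) 𝒪 θ T)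
    (hres : (GaloisRepAdic.ofResidualGaloisRep H.ρ.residual).IsOrdinaryAt p) :
    H.ρ.IsOrdinaryAt p := by
  intro A hA
  let k₀ := IsLocalRing.ResidueField T
  obtain ⟨Lb, ⟨bb, hLb⟩, -, hinert⟩ : ∃ L : Submodule k₀ (k₀ ⊗[T] H.ρ.V),
      (∃ b : Module.Basis (Fin 2) k₀ (k₀ ⊗[T] H.ρ.V), L = k₀ ∙ b 0) ∧
      (∀ σ ∈ A.decompositionSubgroup ℚ, ∀ v ∈ L, (H.ρ.ρ σ).baseChange k₀ v ∈ L) ∧
      ∀ σ ∈ A.inertiaSubgroupIn ℚ, ∀ v : k₀ ⊗[T] H.ρ.V, (H.ρ.ρ σ).baseChange k₀ v - v ∈ L :=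
    hres A hA
  obtain ⟨τ, hτ, ζ, hζ, hτζ⟩ := exists_inertia_apply_root_ne hp hp2 hA
  have hτ1 : (H.ρ.ρ τ).baseChange k₀ ≠ 1 :=
    residual_ne_one_of_apply_root_ne hp hp𝒪 hNS H hζ hτζ
  let res : H.ρ.V →ₗ[T] k₀ ⊗[T] H.ρ.V := TensorProduct.mk T k₀ H.ρ.V 1
  have hresρ : ∀ σ v, res (H.ρ.ρ σ v) = (H.ρ.ρ σ).baseChange k₀ (res v) := fun σ v => rfl
  have hres_surj : Function.Surjective res := by
    intro y
    induction y using TensorProduct.induction_on with
    | zero => exact ⟨0, map_zero _⟩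
    | tmul c v =>
      obtain ⟨s, rfl⟩ := IsLocalRing.residue_surjective c
      refine ⟨s • v, ?_⟩
      show (1 : k₀) ⊗ₜ[T] (s • v) = _
      rw [← TensorProduct.smul_tmul, Algebra.smul_def, mul_one]
      rfl
    | add x y hx hy =>
      obtain ⟨u, rfl⟩ := hx
      obtain ⟨u', rfl⟩ := hy
      exact ⟨u + u', map_add _ _ _⟩
  obtain ⟨v₀, hv₀⟩ : ∃ v₀ : H.ρ.V, res (H.ρ.ρ τ v₀ - v₀) ≠ 0 := by
    by_contra! h
    refine hτ1 (LinearMap.ext fun y => ?_)
    obtain ⟨u, rfl⟩ := hres_surj y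
    rw [Module.End.one_apply, ← hresρ, ← sub_eq_zero, ← map_sub]
    exact h u
  set a := H.ρ.ρ τ v₀ - v₀ with ha
  obtain ⟨w, hw⟩ := hres_surj (bb 1)
  obtain ⟨s, hs⟩ := Submodule.mem_span_singleton.mp
    (show res a ∈ k₀ ∙ bb 0 by rw [← hLb, ha, map_sub, hresρ]; exact hinert τ hτ _)
  have hs0 : s ≠ 0 := fun h => hv₀ (by rw [← hs, h, zero_smul])
  obtain ⟨b, hb0, hb1⟩ := exists_basis_of_residual H.ρ a w (eq_top_iff.mpr (bb.span_eq ▸
    Submodule.span_le.mpr (by
      rintro _ ⟨i, rfl⟩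
      rw [SetLike.mem_coe, Submodule.mem_span_pair]
      fin_cases i
      · exact ⟨s⁻¹, 0, by
          show s⁻¹ • res a + 0 • res w = bb 0
          rw [zero_smul, add_zero, ← hs, inv_smul_smul₀ hs0]⟩
      · exact ⟨0, 1, by
          show (0 : k₀) • res a + (1 : k₀) • res w = bb 1
          rw [zero_smul, zero_add, one_smul, hw]⟩)))
  have hres_repr : ∀ x : H.ρ.V, res x ∈ Lb → b.repr x 1 ∈ IsLocalRing.maximalIdeal T := by
    intro x hx
    obtain ⟨c, hc⟩ := Submodule.mem_span_singleton.mp (show res x ∈ k₀ ∙ bb 0 from hLb ▸ hx)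
    have hx' : res x = IsLocalRing.residue T (b.repr x 0) • res a +
        IsLocalRing.residue T (b.repr x 1) • bb 1 := by
      conv_lhs => rw [← b.sum_repr x, Fin.sum_univ_two, hb0, hb1, map_add, map_smul, map_smul, hw]
      rw [← IsLocalRing.ResidueField.algebraMap_eq, algebraMap_smul, algebraMap_smul]
    have h1 := congrArg (fun y => bb.repr y 1) (hc.trans hx')
    rw [← hs] at h1
    simp only [map_add, map_smul, bb.repr_self, Finsupp.add_apply, Finsupp.smul_apply] at h1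
    simp at h1
    exact (IsLocalRing.residue_eq_zero_iff _).mp h1.symm
  -- the key congruence at every level
  have key : ∀ x : H.ρ.V, (∀ n : ℕ, ∃ e : MonoidAlgebra ℤ Γℚ,
      (∀ v, res (repHom H.ρ e v) ∈ Lb) ∧
      repHom H.ρ e a - a ∈ IsLocalRing.maximalIdeal T ^ n • (⊤ : Submodule T H.ρ.V) ∧
      repHom H.ρ e x - x ∈ IsLocalRing.maximalIdeal T ^ n • (⊤ : Submodule T H.ρ.V)) →
      x ∈ T ∙ a := by
    intro x hx
    suffices h : b.repr x 1 = 0 by
      rw [← b.sum_repr x, Fin.sum_univ_two, h, zero_smul, add_zero, hb0]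
      exact Submodule.smul_mem _ _ (Submodule.mem_span_singleton_self a)
    have : ∀ n, b.repr x 1 ∈ IsLocalRing.maximalIdeal T ^ n := by
      intro n
      obtain ⟨e, heL, hea, hex⟩ := hx n
      have hcoord : ∀ y ∈ IsLocalRing.maximalIdeal T ^ n • (⊤ : Submodule T H.ρ.V),
          b.repr y 1 ∈ IsLocalRing.maximalIdeal T ^ n := fun y hy => by
        refine Submodule.smul_induction_on hy (fun r hr v _ => ?_) (fun u u' hu hu' => ?_)
        · rw [map_smul, Finsupp.smul_apply, smul_eq_mul]; exact Ideal.mul_mem_right _ _ hr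
        · rw [map_add, Finsupp.add_apply]; exact Ideal.add_mem _ hu hu'
      have ha1 : b.repr a 1 = 0 := by
        rw [← hb0, b.repr_self]
        exact Finsupp.single_eq_of_ne (by decide)
      have h1 := hcoord _ hea
      rw [map_sub, Finsupp.sub_apply, ha1, sub_zero] at h1
      have h2 := hcoord _ hex
      set u := b.repr (repHom H.ρ e w) 1 with hu
      have hum : u ∈ IsLocalRing.maximalIdeal T := hres_repr _ (heL w)
      have h3 : b.repr (repHom H.ρ e x) 1 =
          b.repr x 0 * b.repr (repHom H.ρ e a) 1 + b.repr x 1 * u := by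
        conv_lhs => rw [← b.sum_repr x, Fin.sum_univ_two, hb0, hb1]
        simp [hu]
      rw [map_sub, Finsupp.sub_apply, h3] at h2
      have h4 : b.repr x 1 * (u - 1) ∈ IsLocalRing.maximalIdeal T ^ n := by
        have := Ideal.sub_mem _ h2 (Ideal.mul_mem_left _ (b.repr x 0) h1)
        convert this using 1
        ring
      exact (Ideal.mul_unit_mem_iff_mem _ (by
        by_contra h
        exact (IsLocalRing.maximalIdeal.isMaximal T).ne_top ((Ideal.eq_top_iff_one _).mpr (by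
          simpa using Ideal.sub_mem _ hum ((IsLocalRing.mem_maximalIdeal _).mpr h))))).mp h4
    have hmem : b.repr x 1 ∈ ⨅ n, IsLocalRing.maximalIdeal T ^ n := Ideal.mem_iInf.mpr this
    rwa [Ideal.iInf_pow_eq_bot_of_isLocalRing _ (IsLocalRing.maximalIdeal.isMaximal T).ne_top]
      at hmem
  -- idempotent elements at every level
  have helem : ∀ n : ℕ, ∃ e : MonoidAlgebra ℤ Γℚ, (∀ v, res (repHom H.ρ e v) ∈ Lb) ∧
      ∀ σ ∈ A.inertiaSubgroupIn ℚ, ∀ d ∈ A.decompositionSubgroup ℚ, ∀ v,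
        repHom H.ρ e (H.ρ.ρ d (H.ρ.ρ σ v - v)) - H.ρ.ρ d (H.ρ.ρ σ v - v) ∈
          IsLocalRing.maximalIdeal T ^ n • (⊤ : Submodule T H.ρ.V) := by
    intro n
    obtain ⟨k, hk⟩ := exists_level_repHom_mem hp hp𝒪 hpS hNS hJ H n
    obtain ⟨K, hKk, hKD, hKI, hKfix⟩ := hK A hA k
    let I := A.inertiaSubgroupIn ℚ
    have hID : ∀ σ : I, (σ : Γℚ) ∈ A.decompositionSubgroup ℚ := fun σ => by
      obtain ⟨τ', -, hτ'⟩ := σ.2
      exact hτ' ▸ τ'.2
    have hKfin : (K : Set (JZero N)).Finite := (hJ.finite_torsion k).subset hKk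
    let Kp : AddSubgroup (JZero N) := K ⊓ (DistribSMul.toAddMonoidHom (JZero N) p).ker
    have : Finite Kp := (hKfin.subset fun x hx => hx.1).to_subtype
    have hmemKp : ∀ x, x ∈ Kp ↔ x ∈ K ∧ p • x = 0 := fun x => Iff.rfl
    obtain ⟨f₁, hf₁, hfix₁⟩ := exists_aug_eq_zero_fix (G := I) Kp
      (fun g x hx => (hmemKp _).mpr ⟨hKD g (hID g) x hx.1, by
        rw [smul_comm, ((hmemKp x).mp hx).2, smul_zero]⟩)
      (fun U hU hUst x hx hxU => hKfix U (hU.trans inf_le_left)
        (fun u hu => ((hmemKp u).mp (hU hu)).2) (fun σ hσ u hu => hUst ⟨σ, hσ⟩ u hu) x hx.1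
        ((hmemKp x).mp hx).2 fun σ hσ => hxU ⟨σ, hσ⟩)
    obtain ⟨f, hf, hfix⟩ := exists_aug_eq_zero_fix_of_pow (G := I) K
      (fun g x hx => hKD g (hID g) x hx) hKk f₁ hf₁
      fun x hx hpx => hfix₁ x ((hmemKp x).mpr ⟨hx, hpx⟩)
    refine ⟨subgroupHom I f, fun v => ?_, fun σ hσ d hd v => ?_⟩
    · rw [repHom_subgroupHom_eq_sum_sub I H.ρ hf, map_finsuppSum]
      refine Submodule.sum_mem _ fun g _ => ?_
      show res (f.coeff g • (H.ρ.ρ g v - v)) ∈ Lb
      rw [map_zsmul, map_sub, hresρ]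
      exact zsmul_mem (hinert g g.2 (res v)) _
    · have h := hk ((subgroupHom I f - 1) * MonoidAlgebra.single d 1 *
          (MonoidAlgebra.single σ 1 - 1)) (fun x hx => by
        rw [actHom_mul, actHom_mul, actHom_sub (MonoidAlgebra.single σ (1 : ℤ)), actHom_sub,
          actHom_one, actHom_one, actHom_single, actHom_single, one_zsmul, one_zsmul,
          actHom_subgroupHom, hfix _ (hKD d hd _ (hKI σ hσ x hx)), sub_self]) v
      simp only [map_mul, map_sub, map_one, repHom_single, one_zsmul, Module.End.mul_apply,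
        LinearMap.sub_apply, Module.End.one_apply] at h
      simp only [map_sub]
      rwa [sub_sub_sub_comm]
  refine ⟨T ∙ a, ⟨b, by rw [hb0]⟩, fun σ hσ v hv => ?_, fun σ hσ v => ?_⟩
  · obtain ⟨c, rfl⟩ := Submodule.mem_span_singleton.mp hv
    rw [map_smul]
    refine Submodule.smul_mem _ c (key _ fun n => ?_)
    obtain ⟨e, heL, he⟩ := helem n
    refine ⟨e, heL, ?_, he τ hτ σ hσ v₀⟩
    simpa [← ha] using he τ hτ 1 (one_mem _) v₀
  · refine key _ fun n => ?_
    obtain ⟨e, heL, he⟩ := helem n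
    refine ⟨e, heL, ?_, ?_⟩
    · simpa [← ha] using he τ hτ 1 (one_mem _) v₀
    · simpa using he σ hσ 1 (one_mem _) v

end FermatLib.Galois.Ordinary
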