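/-
Connected kernels on `J₀(N)[p^k]` from the connected part at lower level and a reduction kernel.
-/
import Fermat.Agent.Galois.Ordinary.Assembly
import Fermat.Agent.Galois.Flat.Points
import Fermat.Agent.Galois.FlatTransferRep

/-!
# Connected kernels at level `N` from level `M`

The points of the reduction kernel whose two push-forwards to level `M` are connected form a
subgroup without trivial inertia constituents, provided no nonzero point of the reduction kernel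
killed by `p` and by both push-forwards is fixed by an inertia element moving `μ_p`.
-/

set_option autoImplicit false

open ModularCurve

namespace FermatLib.Galois.Ordinary

local notation "Qbar" => AlgebraicClosure ℚ
local notation "Γℚ" => (AlgebraicClosure ℚ ≃ₐ[ℚ] AlgebraicClosure ℚ)

variable {p N M : ℕ} [NeZero N] [NeZero M]

/-- The Galois action on `J₀(M)[p^k]`, by additive maps. -/
noncomputable def torsionActHom (M p k : ℕ) [NeZero M] (σ : Γℚ) :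
    (Submodule.torsionBy ℤ (JZero M) ((p : ℤ) ^ k)).toAddSubgroup →+
      (Submodule.torsionBy ℤ (JZero M) ((p : ℤ) ^ k)).toAddSubgroup where
  toFun := FlatModel.torsionAct _ σ
  map_zero' := Subtype.ext (smul_zero σ)
  map_add' a b := Subtype.ext (smul_add σ (a : JZero M) b)

omit [NeZero M] in
theorem galois_smul_zero (σ : Γℚ) : σ • (0 : JZero M) = 0 := smul_zero (A := JZero M) σ

omit [NeZero M] in
theorem galois_smul_sub (σ : Γℚ) (a b : JZero M) : σ • (a - b) = σ • a - σ • b := smul_sub σ a b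

omit [NeZero M] in
theorem galois_smul_nsmul (σ : Γℚ) (n : ℕ) (a : JZero M) : n • σ • a = σ • n • a := smul_comm n σ a

omit [NeZero N] in
/-- One push-forward step: a fixed vector modulo `U` can be moved into the kernel. -/
theorem exists_sub_mem_ker {A : ValuationSubring Qbar} {k : ℕ}
    {C : AddSubgroup (Submodule.torsionBy ℤ (JZero M) ((p : ℤ) ^ k)).toAddSubgroup}
    (hC : Flat.IsConnectedPart A p (torsionActHom M p k) C)
    (α : JZero N →+ JZero M) (hα : ∀ (σ : Γℚ) (x : JZero N), α (σ • x) = σ • α x)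
    (U : AddSubgroup (JZero N))
    (hU : ∀ σ ∈ A.inertiaSubgroupIn ℚ, ∀ u ∈ U, σ • u ∈ U)
    {x : JZero N}
    (hxC : ∃ c ∈ C, (c : JZero M) = α x) (hpx : p • x = 0)
    (hxU : ∀ σ ∈ A.inertiaSubgroupIn ℚ, σ • x - x ∈ U) :
    ∃ u ∈ U, α (x - u) = 0 := by
  let T := (Submodule.torsionBy ℤ (JZero M) ((p : ℤ) ^ k)).toAddSubgroup
  let U' : AddSubgroup T := (U.map α).comap T.subtype
  have hU' : Flat.IsInertiaStable A (torsionActHom M p k) U' := by
    rintro σ hσ n hn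
    obtain ⟨u, hu, hun⟩ := hn
    exact ⟨σ • u, hU σ hσ u hu, by rw [hα, hun]; rfl⟩
  obtain ⟨c, hc, hcx⟩ := hxC
  have hmem : c ∈ U' := by
    refine hC.mem_of_fixed U' hU' c hc 1 ?_ fun σ hσ => ?_
    · refine ⟨0, zero_mem _, ?_⟩
      rw [map_zero, pow_one]
      show (0 : JZero M) = ((p • c : T) : JZero M)
      rw [AddSubgroup.coe_nsmul, hcx, ← map_nsmul, hpx, map_zero]
    · refine ⟨σ • x - x, hxU σ hσ, ?_⟩
      show α (σ • x - x) = ((torsionActHom M p k σ c - c : T) : JZero M)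
      rw [map_sub, hα, ← hcx]
      rfl
  obtain ⟨u, hu, huc⟩ := hmem
  refine ⟨u, hu, ?_⟩
  rw [map_sub, ← hcx, huc]
  exact sub_self _

/-- `J₀(N)[p^k]` has connected kernels if `J₀(M)[p^k]` has finite flat models at `p` and the
reduction kernel has no fixed vector among the points killed by `p` and both push-forwards. -/
theorem hasConnectedKernels_of (hp : p.Prime) (hp2 : p ≠ 2)
    (hfin : Set.Finite {x : JZero N | p • x = 0})
    (hmodel : ∀ k : ℕ, FlatModel.HasModelAt p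
      (Submodule.torsionBy ℤ (JZero M) ((p : ℤ) ^ k)).toAddSubgroup (FlatModel.torsionAct _))
    (α β : JZero N →+ JZero M) (hα : ∀ (σ : Γℚ) (x : JZero N), α (σ • x) = σ • α x)
    (hβ : ∀ (σ : Γℚ) (x : JZero N), β (σ • x) = σ • β x)
    (hR : ∀ A : ValuationSubring Qbar, A.LiesOverPrime p → ∃ R : AddSubgroup (JZero N),
      (∀ σ ∈ A.decompositionSubgroup ℚ, ∀ x ∈ R, σ • x ∈ R) ∧
      (∀ σ ∈ A.inertiaSubgroupIn ℚ, ∀ x : JZero N, (∃ k : ℕ, p ^ k • x = 0) → σ • x - x ∈ R) ∧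
      ∀ x ∈ R, p • x = 0 → α x = 0 → β x = 0 → ∀ τ ∈ A.inertiaSubgroupIn ℚ, ∀ ζ : Qbar,
        IsPrimitiveRoot ζ p → τ ζ ≠ ζ → τ • x = x → x = 0) :
    HasConnectedKernels N p := by
  classical
  intro A hA k
  obtain ⟨R, hRD, hRI, hRfix⟩ := hR A hA
  obtain ⟨C, hC⟩ := Flat.exists_isConnectedPart (act := torsionActHom M p k)
    hp hp2 hA (hmodel k)
  obtain ⟨τ, hτ, ζ, hζ, hτζ⟩ := exists_inertia_apply_root_ne hp hp2 hA
  let T := (Submodule.torsionBy ℤ (JZero M) ((p : ℤ) ^ k)).toAddSubgroup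
  let C' : AddSubgroup (JZero M) := C.map T.subtype
  have hC'mem : ∀ y, y ∈ C' ↔ ∃ c ∈ C, (c : JZero M) = y := fun y => Iff.rfl
  have hTmem : ∀ y : JZero M, p ^ k • y = 0 → y ∈ T := fun y hy => by
    rw [Submodule.mem_toAddSubgroup, Submodule.mem_torsionBy_iff,
      show ((p : ℤ) ^ k) = ((p ^ k : ℕ) : ℤ) by push_cast; ring, natCast_zsmul]
    exact hy
  let Kt : AddSubgroup (JZero N) := (DistribSMul.toAddMonoidHom (JZero N) (p ^ k)).ker
  let K : AddSubgroup (JZero N) := Kt ⊓ R ⊓ C'.comap α ⊓ C'.comap β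
  have hK : ∀ x, x ∈ K ↔ ((p ^ k • x = 0 ∧ x ∈ R) ∧ α x ∈ C') ∧ β x ∈ C' := fun x => Iff.rfl
  have hC'D : ∀ σ ∈ A.decompositionSubgroup ℚ, ∀ y ∈ C', σ • y ∈ C' := by
    rintro σ hσ _ ⟨c, hc, rfl⟩
    exact ⟨torsionActHom M p k σ c, hC.decomposition_stable σ hσ c hc, rfl⟩
  refine ⟨K, fun x hx => ((hK x).mp hx).1.1.1, fun σ hσ x hx => ?_, fun σ hσ x hx => ?_, ?_⟩
  · obtain ⟨⟨⟨hxk, hxR⟩, hxa⟩, hxb⟩ := (hK x).mp hx
    refine (hK _).mpr ⟨⟨⟨?_, hRD σ hσ x hxR⟩, ?_⟩, ?_⟩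
    · rw [galois_smul_nsmul, hxk, galois_smul_zero]
    · rw [hα]; exact hC'D σ hσ _ hxa
    · rw [hβ]; exact hC'D σ hσ _ hxb
  · have hγ : ∀ γ : JZero N →+ JZero M, (∀ (σ : Γℚ) (x : JZero N), γ (σ • x) = σ • γ x) →
        γ (σ • x - x) ∈ C' := fun γ hγ => by
      rw [map_sub, hγ]
      exact ⟨_, hC.inertia_sub_mem σ hσ ⟨γ x, hTmem _ (by rw [← map_nsmul, hx, map_zero])⟩, rfl⟩
    refine (hK _).mpr ⟨⟨⟨?_, hRI σ hσ x ⟨k, hx⟩⟩, hγ α hα⟩, hγ β hβ⟩
    rw [nsmul_sub, galois_smul_nsmul, hx, galois_smul_zero, sub_zero]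
  intro U hUK hpU hUst x hxK hpx hxU
  obtain ⟨u₁, hu₁, hαx⟩ := exists_sub_mem_ker hC α hα U hUst
    ((hK x).mp hxK).1.2 hpx hxU
  let U₁ : AddSubgroup (JZero N) := U ⊓ α.ker
  have hU₁st : ∀ σ ∈ A.inertiaSubgroupIn ℚ, ∀ u ∈ U₁, σ • u ∈ U₁ := fun σ hσ u hu =>
    ⟨hUst σ hσ u hu.1, AddMonoidHom.mem_ker.mpr (by
      rw [hα, AddMonoidHom.mem_ker.mp hu.2, galois_smul_zero])⟩
  have hx₁K : x - u₁ ∈ K := sub_mem hxK (hUK hu₁)
  have hpx₁ : p • (x - u₁) = 0 := by rw [nsmul_sub, hpx, hpU u₁ hu₁, sub_zero]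
  have hx₁U : ∀ σ ∈ A.inertiaSubgroupIn ℚ, σ • (x - u₁) - (x - u₁) ∈ U₁ := fun σ hσ => by
    refine ⟨?_, AddMonoidHom.mem_ker.mpr (by rw [map_sub, hα, hαx, galois_smul_zero, sub_zero])⟩
    rw [galois_smul_sub, sub_sub_sub_comm]
    exact U.sub_mem (hxU σ hσ) (U.sub_mem (hUst σ hσ u₁ hu₁) hu₁)
  obtain ⟨u₂, hu₂, hβx⟩ := exists_sub_mem_ker hC β hβ U₁ hU₁st
    ((hK _).mp hx₁K).2 hpx₁ hx₁U
  let U₂ : AddSubgroup (JZero N) := U₁ ⊓ β.ker
  set y := x - u₁ - u₂ with hy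
  have hαy : α y = 0 := by rw [hy, map_sub, hαx, AddMonoidHom.mem_ker.mp hu₂.2, sub_zero]
  have hyU : τ • y - y ∈ U₂ := by
    refine ⟨?_, AddMonoidHom.mem_ker.mpr (by rw [map_sub, hβ, hβx, galois_smul_zero, sub_zero])⟩
    rw [hy, galois_smul_sub, sub_sub_sub_comm]
    exact (U₁.sub_mem (hx₁U τ hτ) (U₁.sub_mem (hU₁st τ hτ u₂ hu₂) hu₂))
  have hU₂st : ∀ u ∈ U₂, τ • u - u ∈ U₂ := fun u hu =>
    sub_mem ⟨hU₁st τ hτ u hu.1, AddMonoidHom.mem_ker.mpr (by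
      rw [hβ, AddMonoidHom.mem_ker.mp hu.2, galois_smul_zero])⟩ hu
  have hzero : ∀ u ∈ K, p • u = 0 → α u = 0 → β u = 0 → τ • u = u → u = 0 :=
    fun u hu hpu ha hb hf => hRfix u ((hK u).mp hu).1.1.2 hpu ha hb τ hτ ζ hζ hτζ hf
  have : Finite U₂ := (hfin.subset fun u hu => hpU u hu.1.1).to_subtype
  let f : U₂ → U₂ := fun u => ⟨τ • (u : JZero N) - u, hU₂st u u.2⟩
  have hfinj : Function.Injective f := by
    intro u v huv
    have h : τ • (u : JZero N) - u = τ • (v : JZero N) - v := congrArg Subtype.val huv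
    refine Subtype.ext (sub_eq_zero.mp ?_)
    have hmem : (u : JZero N) - v ∈ U₂ := sub_mem u.2 v.2
    refine hzero _ (hUK hmem.1.1) (hpU _ hmem.1.1) hmem.1.2 hmem.2 ?_
    rw [galois_smul_sub]
    exact sub_eq_sub_iff_sub_eq_sub.mp h
  obtain ⟨v, hv⟩ := Finite.surjective_of_injective hfinj ⟨_, hyU⟩
  have hv' : τ • (v : JZero N) - v = τ • y - y := congrArg Subtype.val hv
  have hvy : y - v = 0 := by
    refine hzero _ (sub_mem (sub_mem hx₁K (hUK hu₂.1)) (hUK v.2.1.1)) ?_ ?_ ?_ ?_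
    · rw [nsmul_sub, hy, nsmul_sub, hpx₁, hpU u₂ hu₂.1, sub_zero, hpU _ v.2.1.1, sub_zero]
    · rw [map_sub, hαy, AddMonoidHom.mem_ker.mp v.2.1.2, sub_zero]
    · rw [map_sub, hy, hβx, AddMonoidHom.mem_ker.mp v.2.2, sub_zero]
    · rw [galois_smul_sub]
      exact sub_eq_sub_iff_sub_eq_sub.mp hv'.symm
  have hx : x = (v : JZero N) + u₂ + u₁ := by
    rw [← sub_eq_zero.mp hvy, hy]
    abel
  rw [hx]
  exact add_mem (add_mem v.2.1.1 hu₂.1) hu₁

end FermatLib.Galois.Ordinary
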