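/-
S33 modulo the congruence relation, models at level prime to `p` and the reduction kernel.
-/
import Fermat.Agent.Galois.Ordinary.Kernels
import Fermat.Agent.Galois.AttachKummer
import Fermat.Agent.Modular.KummerHecke
import Fermat.Agent.Modular.CorrPush
import Fermat.Agent.AV.MW.Torsion

/-!
# Ordinary at `p` for a level exactly divisible by `p`

Assembly of connected kernels, transfer and the residual hypothesis, for `N = p M` with `p ∤ M`.
-/

set_option autoImplicit false

open ModularCurve CuspForm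

namespace FermatLib.Galois.Ordinary

local notation "Qbar" => AlgebraicClosure ℚ
local notation "Γℚ" => (AlgebraicClosure ℚ ≃ₐ[ℚ] AlgebraicClosure ℚ)

attribute [local instance] FermatLib.Modular.Corr.neZero_mul'

/-- The condition on the reduction kernel at level `p M`: a stable subgroup containing the inertia
displacements of torsion, without fixed vector of order `p` killed by both push-forwards. -/
def HasReductionKernel (p M : ℕ) [NeZero p] [NeZero M] : Prop :=
  ∀ A : ValuationSubring Qbar, A.LiesOverPrime p → ∃ R : AddSubgroup (JZero (p * M)),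
    (∀ σ ∈ A.decompositionSubgroup ℚ, ∀ x ∈ R, σ • x ∈ R) ∧
    (∀ σ ∈ A.inertiaSubgroupIn ℚ, ∀ x : JZero (p * M),
      (∃ k : ℕ, p ^ k • x = 0) → σ • x - x ∈ R) ∧
    ∀ x ∈ R, p • x = 0 → Modular.Corr.pushAlpha p M x = 0 → Modular.Corr.pushBeta p M x = 0 →
      ∀ τ ∈ A.inertiaSubgroupIn ℚ, ∀ ζ : Qbar,
        IsPrimitiveRoot ζ p → τ ζ ≠ ζ → τ • x = x → x = 0

/-- `J₀(p M)[p^k]` has connected kernels. -/
theorem hasConnectedKernels_level {p M : ℕ} [NeZero p] [NeZero M] (hp : p.Prime) (hp2 : p ≠ 2)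
    (hmodel : ∀ k : ℕ, FlatModel.HasModelAt p
      (Submodule.torsionBy ℤ (JZero M) ((p : ℤ) ^ k)).toAddSubgroup (FlatModel.torsionAct _))
    (hR : HasReductionKernel p M) : HasConnectedKernels (p * M) p :=
  hasConnectedKernels_of hp hp2 (AV.MW.finite_nsmul_eq_zero (p * M) hp.ne_zero) hmodel
    (Modular.Corr.pushAlpha p M) (Modular.Corr.pushBeta p M)
    (Modular.Corr.pushAlpha_smul p M) (Modular.Corr.pushBeta_smul p M) hR

/-- The torsion inputs from the congruence relation. -/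
theorem torsionGaloisInputs_of_specialization {N p : ℕ} [NeZero N] (hp : p.Prime)
    (hS37 : Attach.SpecializationInput N p) : TorsionGaloisInputs N p :=
  Attach.torsionGaloisInputs_of_equiv hp (Modular.kummerHeckeEquiv N p hp) hS37

variable {p : ℕ} {N : ℕ} [NeZero N] {S : Finset ℕ}
  {𝒪 : Type} [CommRing 𝒪] [IsDomain 𝒪] [IsDiscreteValuationRing 𝒪]
  [IsAdicComplete (IsLocalRing.maximalIdeal 𝒪) 𝒪]
  {θ : CuspForm.heckeAlgebra N 2 (↑S : Set ℕ) →+* IsLocalRing.ResidueField 𝒪}
  {T : Type} [CommRing T] [IsLocalRing T] [IsNoetherianRing T]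
  [IsAdicComplete (IsLocalRing.maximalIdeal T) T] [Algebra 𝒪 T] [IsLocalHom (algebraMap 𝒪 T)]
  [Module.Finite 𝒪 T] [Module.Free 𝒪 T]

/-- **S33**, given the congruence relation at level `N`, models at level prime to `p` and the
reduction kernel. -/
theorem isOrdinaryAt_of_reductionKernel
    (hp : p.Prime) (hp2 : p ≠ 2) (hp𝒪 : (p : 𝒪) ∈ IsLocalRing.maximalIdeal 𝒪)
    (hN : p ∣ N ∧ ¬ p ^ 2 ∣ N) (hNS : ∀ q : ℕ, q.Prime → q ∣ N → q ∈ S)
    (hS37 : Attach.SpecializationInput N p)
    (hmodel : ∀ (M : ℕ) [NeZero M], ¬ p ∣ M → ∀ k : ℕ, FlatModel.HasModelAt p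
      (Submodule.torsionBy ℤ (JZero M) ((p : ℤ) ^ k)).toAddSubgroup (FlatModel.torsionAct _))
    (hR : ∀ (M : ℕ) [NeZero p] [NeZero M], N = p * M → ¬ p ∣ M → HasReductionKernel p M)
    (H : CuspForm.HeckeGaloisRepDatum N (↑S : Set ℕ) 𝒪 θ T)
    (hres : (GaloisRepAdic.ofResidualGaloisRep H.ρ.residual).IsOrdinaryAt p) :
    H.ρ.IsOrdinaryAt p := by
  have hpS : p ∈ S := hNS p hp hN.1
  obtain ⟨M, rfl⟩ := hN.1
  have : NeZero p := ⟨hp.ne_zero⟩
  have : NeZero M := ⟨fun h => NeZero.ne (p * M) (by rw [h, mul_zero])⟩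
  have hpM : ¬ p ∣ M := fun h => hN.2 (by rw [pow_two]; exact mul_dvd_mul_left p h)
  exact isOrdinaryAt_datum hp hp2 hp𝒪 hpS hNS (torsionGaloisInputs_of_specialization hp hS37)
    (hasConnectedKernels_level hp hp2 (hmodel M hpM) (hR M rfl hpM)) H hres

end FermatLib.Galois.Ordinary
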