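/-
The reduction kernel with the square of Frobenius, and strict ordinarity from `ν(Frob)² = 1`.
-/
import Fermat.Agent.Galois.Ordinary.Level
import Fermat.Agent.Galois.FrobeniusElement
import Fermat.Agent.Basic.FrobeniusExists
import Fermat.Agent.MLT.Ordinary.Basic

/-!
# Strictly ordinary at `p` from the reduction kernel

At level `p M` the square of a Frobenius at `p` moves the torsion killed by both push-forwards by
elements of the reduction kernel.  So some element of the group algebra, acting as `ν(Frob)² - 1`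
on the unramified quotient, kills this torsion; with cyclotomic determinant this is strictness.
-/

set_option autoImplicit false

open ModularCurve

namespace FermatLib.Galois.Ordinary

local notation "Qbar" => AlgebraicClosure ℚ
local notation "Γℚ" => (AlgebraicClosure ℚ ≃ₐ[ℚ] AlgebraicClosure ℚ)

attribute [local instance] FermatLib.Modular.Corr.neZero_mul'

/-- A reduction kernel modulo which the square of Frobenius fixes the torsion killed by both
push-forwards. -/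
def HasStrictReductionKernel (p M : ℕ) [NeZero p] [NeZero M] : Prop :=
  ∀ A : ValuationSubring Qbar, A.LiesOverPrime p → ∃ R : AddSubgroup (JZero (p * M)),
    (∀ σ ∈ A.decompositionSubgroup ℚ, ∀ x ∈ R, σ • x ∈ R) ∧
    (∀ σ ∈ A.inertiaSubgroupIn ℚ, ∀ x : JZero (p * M),
      (∃ k : ℕ, p ^ k • x = 0) → σ • x - x ∈ R) ∧
    (∀ x ∈ R, p • x = 0 → Modular.Corr.pushAlpha p M x = 0 → Modular.Corr.pushBeta p M x = 0 →
      ∀ τ ∈ A.inertiaSubgroupIn ℚ, ∀ ζ : Qbar,
        IsPrimitiveRoot ζ p → τ ζ ≠ ζ → τ • x = x → x = 0) ∧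
    ∀ F : Γℚ, A.IsFrobeniusAt F p → ∀ x : JZero (p * M), (∃ k : ℕ, p ^ k • x = 0) →
      Modular.Corr.pushAlpha p M x = 0 → Modular.Corr.pushBeta p M x = 0 → F • F • x - x ∈ R

theorem HasStrictReductionKernel.hasReductionKernel {p M : ℕ} [NeZero p] [NeZero M]
    (h : HasStrictReductionKernel p M) : HasReductionKernel p M := fun A hA => by
  obtain ⟨R, h1, h2, h3, -⟩ := h A hA
  exact ⟨R, h1, h2, h3⟩

/-- On a finite stable `p`-power torsion group without fixed vector killed by `p`, a positive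
power of `τ - 1` is the identity. -/
theorem exists_pow_sub_one_eq_self {G M : Type*} [Group G] [AddCommGroup M]
    [DistribMulAction G M] {p k : ℕ} (τ : G) (K : AddSubgroup M) [Finite K]
    (hK : ∀ x ∈ K, τ • x ∈ K) (hk : ∀ x ∈ K, p ^ k • x = 0)
    (hfix : ∀ x ∈ K, p • x = 0 → τ • x = x → x = 0) :
    ∃ m : ℕ, 0 < m ∧ ∀ x ∈ K, actHom G M ((MonoidAlgebra.single τ 1 - 1) ^ m) x = x := by
  have hzero : ∀ j, ∀ x ∈ K, p ^ j • x = 0 → τ • x = x → x = 0 := by
    intro j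
    induction j with
    | zero => intro x _ hx _; rwa [pow_zero, one_nsmul] at hx
    | succ j ih =>
      intro x hx hpx hf
      refine ih x hx (hfix _ (nsmul_mem hx _) ?_ ?_) hf
      · rw [smul_smul, ← pow_succ', hpx]
      · rw [smul_comm, hf]
  let f : K → K := fun x => ⟨τ • (x : M) - x, sub_mem (hK x x.2) x.2⟩
  have hf : Function.Injective f := fun a b hab => by
    have h : τ • (a : M) - a = τ • (b : M) - b := congrArg Subtype.val hab
    refine Subtype.ext (sub_eq_zero.mp ?_)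
    refine hzero k _ (sub_mem a.2 b.2) (hk _ (sub_mem a.2 b.2)) ?_
    rw [smul_sub]
    exact sub_eq_sub_iff_sub_eq_sub.mp h
  let e : Equiv.Perm K := Equiv.ofBijective f hf.bijective_of_finite
  obtain ⟨m, hm, hme⟩ := (isOfFinOrder_of_finite e).exists_pow_eq_one
  refine ⟨m, hm, fun x hx => ?_⟩
  have key : ∀ j : ℕ, ∀ y : K,
      actHom G M ((MonoidAlgebra.single τ 1 - 1) ^ j) (y : M) = ((e ^ j) y : K) := by
    intro j
    induction j with
    | zero => intro y; rw [pow_zero, pow_zero, actHom_one]; rfl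
    | succ j ih =>
      intro y
      rw [pow_succ, pow_succ, actHom_mul, actHom_sub, actHom_single, actHom_one, one_zsmul]
      exact (ih (f y)).trans rfl
  have h := key m ⟨x, hx⟩
  rwa [hme] at h

/-- The element killing the torsion killed by both push-forwards. -/
theorem exists_kill_new {p M : ℕ} [NeZero p] [NeZero M] (hR : HasStrictReductionKernel p M)
    {k : ℕ} (hfin : Set.Finite {x : JZero (p * M) | p ^ k • x = 0})
    {A : ValuationSubring Qbar} (hA : A.LiesOverPrime p) {F : Γℚ} (hF : A.IsFrobeniusAt F p)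
    {τ : Γℚ} (hτ : τ ∈ A.inertiaSubgroupIn ℚ) {ζ : Qbar} (hζ : IsPrimitiveRoot ζ p)
    (hτζ : τ ζ ≠ ζ) :
    ∃ m : ℕ, 0 < m ∧ ∀ x : JZero (p * M), p ^ k • x = 0 → Modular.Corr.pushAlpha p M x = 0 →
      Modular.Corr.pushBeta p M x = 0 → actHom Γℚ (JZero (p * M))
        ((1 - (MonoidAlgebra.single τ 1 - 1) ^ m) * (MonoidAlgebra.single (F * F) 1 - 1)) x = 0 := by
  classical
  obtain ⟨R, hRD, -, hfix, hsq⟩ := hR A hA
  let Kt : AddSubgroup (JZero (p * M)) :=
    (DistribSMul.toAddMonoidHom (JZero (p * M)) (p ^ k)).ker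
  let K : AddSubgroup (JZero (p * M)) :=
    Kt ⊓ R ⊓ (Modular.Corr.pushAlpha p M).ker ⊓ (Modular.Corr.pushBeta p M).ker
  have hK : ∀ x, x ∈ K ↔ ((p ^ k • x = 0 ∧ x ∈ R) ∧ Modular.Corr.pushAlpha p M x = 0) ∧
      Modular.Corr.pushBeta p M x = 0 := fun x => Iff.rfl
  have : Finite K := (hfin.subset fun x hx => ((hK x).mp hx).1.1.1).to_subtype
  have hD : ∀ σ ∈ A.decompositionSubgroup ℚ, ∀ x ∈ K, σ • x ∈ K := by
    intro σ hσ x hx
    obtain ⟨⟨⟨h1, h2⟩, h3⟩, h4⟩ := (hK x).mp hx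
    refine (hK _).mpr ⟨⟨⟨?_, hRD σ hσ x h2⟩, ?_⟩, ?_⟩
    · rw [galois_smul_nsmul, h1, galois_smul_zero]
    · rw [Modular.Corr.pushAlpha_smul, h3, galois_smul_zero]
    · rw [Modular.Corr.pushBeta_smul, h4, galois_smul_zero]
  obtain ⟨m, hm, hid⟩ := exists_pow_sub_one_eq_self (k := k) τ K
    (hD τ (inertiaSubgroupIn_le_decompositionSubgroup hτ)) (fun x hx => ((hK x).mp hx).1.1.1)
    fun x hx hpx hfx =>
      hfix x ((hK x).mp hx).1.1.2 hpx ((hK x).mp hx).1.2 ((hK x).mp hx).2 τ hτ ζ hζ hτζ hfx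
  refine ⟨m, hm, fun x hx ha hb => ?_⟩
  have hy : F • F • x - x ∈ K := by
    refine (hK _).mpr ⟨⟨⟨?_, hsq F hF x ⟨k, hx⟩ ha hb⟩, ?_⟩, ?_⟩
    · rw [nsmul_sub, galois_smul_nsmul, galois_smul_nsmul, hx, galois_smul_zero,
        galois_smul_zero, sub_zero]
    · rw [map_sub, Modular.Corr.pushAlpha_smul, Modular.Corr.pushAlpha_smul, ha,
        galois_smul_zero, galois_smul_zero, sub_zero]
    · rw [map_sub, Modular.Corr.pushBeta_smul, Modular.Corr.pushBeta_smul, hb,
        galois_smul_zero, galois_smul_zero, sub_zero]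
  rw [actHom_mul, actHom_sub (MonoidAlgebra.single (F * F) (1 : ℤ)), actHom_single, actHom_one,
    one_zsmul, mul_smul, actHom_sub, actHom_one, hid _ hy, sub_self]

section Criterion

variable {T : Type} [CommRing T] [IsLocalRing T] {ρ : GaloisRepAdic T}

/-- The second diagonal coordinate is multiplicative on elements fixing the first line. -/
theorem repr_one_mul (b : Module.Basis (Fin 2) T ρ.V) {σ : Γℚ} (τ : Γℚ)
    (hσ : ρ.ρ σ (b 0) ∈ T ∙ b 0) :
    b.repr (ρ.ρ (σ * τ) (b 1)) 1 = b.repr (ρ.ρ σ (b 1)) 1 * b.repr (ρ.ρ τ (b 1)) 1 := by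
  obtain ⟨c, hc⟩ := Submodule.mem_span_singleton.mp hσ
  rw [map_mul, Module.End.mul_apply]
  conv_lhs => rw [← b.sum_repr (ρ.ρ τ (b 1)), Fin.sum_univ_two]
  rw [map_add, map_smul, map_smul, ← hc]
  simp [mul_comm]

theorem repr_one_eq_zero (b : Module.Basis (Fin 2) T ρ.V) {v : ρ.V} (hv : v ∈ T ∙ b 0) :
    b.repr v 1 = 0 := by
  obtain ⟨c, rfl⟩ := Submodule.mem_span_singleton.mp hv
  simp

/-- **Strictly ordinary from `ν(Frob)² = 1`.** -/
theorem isStrictOrdinaryAt_of_sq [IsNoetherianRing T] {p : ℕ} (hp : p.Prime)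
    (hdet : ρ.DetIsCyclotomic p) (hord : ρ.IsOrdinaryAt p)
    (hsq : ∀ P : ValuationSubring Qbar, P.LiesOverPrime p → ∀ F : Γℚ, P.IsFrobeniusAt F p →
      ∀ b : Module.Basis (Fin 2) T ρ.V,
      (∀ σ ∈ P.decompositionSubgroup ℚ, ρ.ρ σ (b 0) ∈ T ∙ b 0) →
      (∀ σ ∈ P.inertiaSubgroupIn ℚ, ∀ v, ρ.ρ σ v - v ∈ T ∙ b 0) →
      b.repr (ρ.ρ F (b 1)) 1 ^ 2 = 1) :
    ρ.IsStrictOrdinaryAt p := by
  refine ⟨hdet.1, fun P hP => ?_⟩
  obtain ⟨L, ⟨b, hb⟩, hD, hI⟩ := hord P hP
  subst hb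
  have hD0 : ∀ σ ∈ P.decompositionSubgroup ℚ, ρ.ρ σ (b 0) ∈ T ∙ b 0 := fun σ hσ =>
    hD σ hσ _ (Submodule.mem_span_singleton_self _)
  obtain ⟨F, hF⟩ := Basic.exists_isFrobeniusAt hp P hP
  have hFD := hF.mem_decompositionSubgroup
  have hF2 := hsq P hP F hF b hD0 hI
  have hpow : ∀ k : ℕ, ∀ τ ∈ P.inertiaSubgroupIn ℚ,
      b.repr (ρ.ρ (F ^ k * τ) (b 1)) 1 ^ 2 = 1 := by
    intro k
    induction k with
    | zero =>
      intro τ hτ
      have h := repr_one_eq_zero b (hI τ hτ (b 1))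
      rw [map_sub, Finsupp.sub_apply, sub_eq_zero] at h
      rw [pow_zero, one_mul, h]
      simp
    | succ k ih =>
      intro τ hτ
      rw [pow_succ' F, mul_assoc, repr_one_mul b _ (hD0 F hFD), mul_pow, hF2, ih τ hτ, one_mul]
  refine ⟨T ∙ b 0, ⟨b, rfl⟩, hD, hI, fun σ hσ => ?_⟩
  obtain ⟨x, hx⟩ := Submodule.mem_span_singleton.mp (hD0 σ hσ)
  set z := b.repr (ρ.ρ σ (b 1)) 1 with hz
  have hz2 : z ^ 2 = 1 := by
    rw [← sub_eq_zero, ← Ideal.mem_bot,
      ← Ideal.iInf_pow_eq_bot_of_isLocalRing (IsLocalRing.maximalIdeal T)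
        (IsLocalRing.maximalIdeal.isMaximal T).ne_top]
    refine Ideal.mem_iInf.mpr fun n => ?_
    obtain ⟨K, hK, hKρ⟩ := ρ.isAdicContinuous n
    obtain ⟨k, τ, hτ, hστ⟩ := exists_frobenius_pow_mul_inertia hp hP K hF hσ
    have hfix : ∀ y ∈ K, ((F ^ k * τ)⁻¹ * σ) y = y := fun y hy => by
      show (F ^ k * τ)⁻¹ (σ y) = y
      rw [hστ y hy]
      exact AlgEquiv.symm_apply_apply _ y
    have hcoord : ∀ y ∈ IsLocalRing.maximalIdeal T ^ n • (⊤ : Submodule T ρ.V),
        b.repr y 1 ∈ IsLocalRing.maximalIdeal T ^ n := fun y hy => by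
      refine Submodule.smul_induction_on hy (fun r hr v _ => ?_) (fun u u' hu hu' => ?_)
      · rw [map_smul, Finsupp.smul_apply, smul_eq_mul]; exact Ideal.mul_mem_right _ _ hr
      · rw [map_add, Finsupp.add_apply]; exact Ideal.add_mem _ hu hu'
    have hmem : ρ.ρ σ (b 1) - ρ.ρ (F ^ k * τ) (b 1) ∈
        IsLocalRing.maximalIdeal T ^ n • (⊤ : Submodule T ρ.V) := by
      have h := Submodule.mem_map_of_mem (f := ρ.ρ (F ^ k * τ))
        (hKρ _ hfix (b 1))
      rw [map_sub, ← Module.End.mul_apply, ← map_mul, mul_inv_cancel_left,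
        Submodule.map_smul''] at h
      exact Submodule.smul_mono le_rfl le_top h
    have h := hcoord _ hmem
    rw [map_sub, Finsupp.sub_apply, ← hz] at h
    have h2 := hpow k τ hτ
    rw [show z ^ 2 - 1 = (z - b.repr (ρ.ρ (F ^ k * τ) (b 1)) 1) *
      (z + b.repr (ρ.ρ (F ^ k * τ) (b 1)) 1) by linear_combination h2]
    exact Ideal.mul_mem_right _ _ h
  have hz1 : ρ.ρ σ (b 1) - z • b 1 ∈ T ∙ b 0 := by
    refine Submodule.mem_span_singleton.mpr ⟨b.repr (ρ.ρ σ (b 1)) 0, eq_sub_of_add_eq ?_⟩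
    conv_rhs => rw [← b.sum_repr (ρ.ρ σ (b 1)), Fin.sum_univ_two]
  have hdσ : LinearMap.det (ρ.ρ σ) = x * z :=
    MLT.det_eq_mul_of_triangular b _ hx.symm hz1
  refine ⟨x, z, fun w hw => ?_, fun v => ?_, fun n a ha => ?_⟩
  · obtain ⟨c, rfl⟩ := Submodule.mem_span_singleton.mp hw
    rw [map_smul, ← hx, smul_comm]
  · have e : v = b.repr v 0 • b 0 + b.repr v 1 • b 1 := by
      conv_lhs => rw [← b.sum_repr v, Fin.sum_univ_two]
    rw [e, map_add, map_smul, map_smul, ← hx, smul_add, add_sub_add_comm,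
      smul_comm z (b.repr v 1), ← smul_sub]
    exact add_mem (sub_mem (Submodule.smul_mem _ _ (Submodule.smul_mem _ _
        (Submodule.mem_span_singleton_self _)))
      (Submodule.smul_mem _ _ (Submodule.smul_mem _ _ (Submodule.mem_span_singleton_self _))))
      (Submodule.smul_mem _ _ hz1)
  · have h := hdet.2 n σ a ha
    rw [hdσ] at h
    rw [show x - (a : T) * z = z * (x * z - (a : T)) by linear_combination -x * hz2]
    exact Ideal.mul_mem_left _ _ h

end Criterion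

end FermatLib.Galois.Ordinary
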