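/-
S33 modulo the reduction kernel: the congruence relation and the models at level prime to `p`.
-/
import Fermat.Agent.Galois.Ordinary.Level
import Fermat.Agent.Igusa.EichlerShimuraModL
import Fermat.Agent.Igusa.ReductionInputs
import Fermat.Agent.Igusa.TorsionInjective
import Fermat.Agent.Basic.FrobeniusExists
import Fermat.Agent.S19

/-!
# Ordinary at `p` modulo the reduction kernel
-/

set_option autoImplicit false
set_option linter.style.haveILetI false
set_option synthInstance.maxHeartbeats 400000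

open ModularCurve CuspForm

namespace FermatLib.Galois.Ordinary

local notation "Qbar" => AlgebraicClosure ℚ

/-- The congruence relation on `J₀(N)` at `p`. -/
theorem specializationInput_level (N p : ℕ) [NeZero N] : Attach.SpecializationInput N p := by
  intro hsc ℓ hℓ hℓNp A hA
  haveI : Fact ℓ.Prime := ⟨hℓ⟩
  have hℓN : ¬ ℓ ∣ N := fun h => hℓNp (dvd_mul_of_dvd_left h p)
  have hℓp : ¬ ℓ ∣ p := fun h => hℓNp (dvd_mul_of_dvd_right h N)
  obtain ⟨g, hR⟩ := Igusa.exists_riemannInequalityAt_bar (N := N)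
  have h := Igusa.reductionInputsModL N hℓN A hA
  obtain ⟨Pinf, Qinf, n₀, hS⟩ := Igusa.exists_smoothLattice N hℓN A hA
  obtain ⟨σ₀, hσ₀⟩ := Basic.exists_isFrobeniusAt hℓ A hA
  refine Igusa.exists_isSpecialization hR (Modular.heckeOperatorsCommuteBar N) p hℓ hℓN hA h
    (fun x hx hx0 => ?_) σ₀ hσ₀ hsc
  obtain ⟨n, hn⟩ := hx
  exact Igusa.eq_zero_of_reductionModL_eq_zero_of_smoothLattice hℓ hA h hS
    (fun hd => hℓp (hℓ.dvd_of_dvd_pow hd)) x hn hx0

/-- Models of `J₀(M)[p^k]` for `p ∤ M`. -/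
theorem hasModelAt_level {p : ℕ} [Fact p.Prime] (M : ℕ) [NeZero M] (hpM : ¬ p ∣ M) (k : ℕ) :
    FlatModel.HasModelAt p
      (Submodule.torsionBy ℤ (JZero M) ((p : ℤ) ^ k)).toAddSubgroup (FlatModel.torsionAct _) :=
  FlatModel.hasModelAt_torsion_of_model _ (Fermat.Agent.S19.result M p hpM k)

variable {p : ℕ} [Fact p.Prime] {N : ℕ} [NeZero N] {S : Finset ℕ}
  {𝒪 : Type} [CommRing 𝒪] [IsDomain 𝒪] [IsDiscreteValuationRing 𝒪]
  [IsAdicComplete (IsLocalRing.maximalIdeal 𝒪) 𝒪]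
  {θ : CuspForm.heckeAlgebra N 2 (↑S : Set ℕ) →+* IsLocalRing.ResidueField 𝒪}
  {T : Type} [CommRing T] [IsLocalRing T] [IsNoetherianRing T]
  [IsAdicComplete (IsLocalRing.maximalIdeal T) T] [Algebra 𝒪 T] [IsLocalHom (algebraMap 𝒪 T)]
  [Module.Finite 𝒪 T] [Module.Free 𝒪 T]

/-- **S33**, given the reduction kernel at level exactly divisible by `p`. -/
theorem isOrdinaryAt_of_kernel (hp2 : p ≠ 2) (hp𝒪 : (p : 𝒪) ∈ IsLocalRing.maximalIdeal 𝒪)
    (hN : p ∣ N ∧ ¬ p ^ 2 ∣ N) (hNS : ∀ q : ℕ, q.Prime → q ∣ N → q ∈ S)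
    (hR : ∀ (M : ℕ) [NeZero p] [NeZero M], N = p * M → ¬ p ∣ M → HasReductionKernel p M)
    (H : CuspForm.HeckeGaloisRepDatum N (↑S : Set ℕ) 𝒪 θ T)
    (hres : (GaloisRepAdic.ofResidualGaloisRep H.ρ.residual).IsOrdinaryAt p) :
    H.ρ.IsOrdinaryAt p :=
  isOrdinaryAt_of_reductionKernel (Fact.out : p.Prime) hp2 hp𝒪 hN hNS
    (specializationInput_level N p) (fun M _ hM k => hasModelAt_level M hM k) hR H hres

end FermatLib.Galois.Ordinary
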