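/-
S33 from a datum on the two modular sheets.
-/
import Fermat.Agent.Galois.Ordinary.LevelInputs
import Fermat.Agent.Igusa.MonoLevelDatum

/-!
# The reduction kernel from the modular two-sheet data
-/

set_option autoImplicit false
set_option linter.style.haveILetI false
set_option synthInstance.maxHeartbeats 400000

open ModularCurve

namespace FermatLib.Galois.Ordinary

open FermatLib.Igusa.Mono

attribute [local instance] FermatLib.Modular.Corr.neZero_mul'

/-- The reduction kernel at level `p M` from two-sheet data at all places over `p`. -/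
theorem hasReductionKernel_of_sheets {p M : ℕ} [Fact p.Prime] [NeZero p] [NeZero M]
    (hpM : ¬ p ∣ M)
    (h : ∀ (A : ValuationSubring (AlgebraicClosure ℚ)) (hA : A.LiesOverPrime p),
      ∃ D : MonoDatum (IsLocalRing.residue A) (modularFunctionFieldBar (p * M))
          (modularFunctionFieldFullC (IsLocalRing.ResidueField A) M) p,
        D.s₁ = monoSheetInf hpM hA ∧ D.s₂ = monoSheetZero hpM hA ∧ D.x = jFq p M) :
    HasReductionKernel p M :=
  hasReductionKernel_of_datum hpM fun A hA => by
    obtain ⟨D, h₁, h₂, hx⟩ := h A hA
    exact ⟨LevelDatum.ofSheets (hA := hA) D h₁ h₂ hx⟩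

end FermatLib.Galois.Ordinary
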